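import Mathlib
import Fermat.Prelude.Def_ModularCurve_LaurentCoeff

/-!
# GAL / KNC / A4 : series over `κ` which are independent over `κ[τ]` stay independent over `k[τ]`
-/

set_option autoImplicit false

namespace Fermat.Agent.GAL.KNC

open Polynomial ModularCurve

theorem a4_coeff_term {R : Type*} [Field R] (b : R) (z : LaurentSeries R) (n : ℤ) :
    (algebraMap R (LaurentSeries R) b * z).coeff n = b * z.coeff n := by
  rw [algebraMap_laurentSeries_eq_single]
  have : (HahnSeries.single (0 : ℤ) b : LaurentSeries R) = HahnSeries.C b := rfl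
  rw [this, HahnSeries.C_mul_eq_smul, HahnSeries.coeff_smul, smul_eq_mul]

theorem a4_coeff_sum {R : Type*} [Field R] (x y : LaurentSeries R) (N : ℕ) (b : ℕ → R) (n : ℤ) :
    (aeval x (∑ m ∈ Finset.range N, monomial m (b m)) * y).coeff n
      = ∑ m ∈ Finset.range N, b m * (x ^ m * y).coeff n := by
  rw [map_sum, Finset.sum_mul, HahnSeries.coeff_sum]
  refine Finset.sum_congr rfl fun m _ => ?_
  rw [aeval_monomial, mul_assoc, a4_coeff_term]

theorem a4_coeff_aeval {R : Type*} [Field R] (x y : LaurentSeries R) (P : R[X]) (N : ℕ)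
    (hN : P.natDegree < N) (n : ℤ) :
    (aeval x P * y).coeff n = ∑ m ∈ Finset.range N, P.coeff m * (x ^ m * y).coeff n := by
  conv_lhs => rw [P.as_sum_range' N hN]
  exact a4_coeff_sum x y N P.coeff n

theorem indep_baseChange {κ k : Type*} [Field κ] [Field k] (φ : κ →+* k) (τ : LaurentSeries κ)
    {d : ℕ} (f : Fin d → LaurentSeries κ)
    (h : ∀ p : Fin d → κ[X], ∑ a, aeval τ (p a) * f a = 0 → p = 0)
    (p : Fin d → k[X]) (hp : ∑ a, aeval (coeffMap φ τ) (p a) * coeffMap φ (f a) = 0) : p = 0 := by
  let _ : Algebra κ k := φ.toAlgebra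
  obtain ⟨N, hN⟩ : ∃ N : ℕ, ∀ a, (p a).natDegree < N :=
    ⟨(Finset.univ.sup fun a => (p a).natDegree) + 1, fun a =>
      Nat.lt_succ_of_le (Finset.le_sup (f := fun a => (p a).natDegree) (Finset.mem_univ a))⟩
  have key : ∀ c : Module.Dual κ k, ∀ a m, c ((p a).coeff m) = 0 := by
    intro c
    have hq : (fun a => ∑ m ∈ Finset.range N, monomial m (c ((p a).coeff m))) = 0 := by
      apply h
      ext n
      rw [HahnSeries.coeff_sum, HahnSeries.coeff_zero]
      have h1 := congrArg (fun z : LaurentSeries k => c (z.coeff n)) hp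
      simp only [HahnSeries.coeff_sum, HahnSeries.coeff_zero, map_zero, map_sum] at h1
      rw [← h1]
      refine Finset.sum_congr rfl fun a _ => ?_
      rw [a4_coeff_sum, a4_coeff_aeval _ _ _ N (hN a), map_sum]
      refine Finset.sum_congr rfl fun m _ => ?_
      rw [← map_pow, ← map_mul, coeffMap_coeff]
      have : (p a).coeff m * φ ((τ ^ m * f a).coeff n)
          = ((τ ^ m * f a).coeff n) • (p a).coeff m := by
        rw [Algebra.smul_def, mul_comm]
        rfl
      rw [this, map_smul, smul_eq_mul, mul_comm]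
    intro a m
    by_cases hm : m < N
    · have h2 := congrArg (fun q : Fin d → κ[X] => (q a).coeff m) hq
      simp only [Pi.zero_apply, coeff_zero, finsetSum_coeff, coeff_monomial] at h2
      rw [Finset.sum_ite_eq' (Finset.range N) m, if_pos (Finset.mem_range.mpr hm)] at h2
      exact h2
    · rw [coeff_eq_zero_of_natDegree_lt (lt_of_lt_of_le (hN a) (not_lt.mp hm)), map_zero]
  funext a
  ext m
  rw [Pi.zero_apply, coeff_zero]
  exact (Module.forall_dual_apply_eq_zero_iff κ _).mp fun c => key c a m

end Fermat.Agent.GAL.KNC
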