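import Mathlib

/-!
# GAL / KNC / A : orthonormal spanning family for `t = j`.  Definitions.
-/

set_option autoImplicit false

namespace Fermat.Agent.GAL.KNC

/-- the subring of the elements of `F` which are integral over `i : 𝔸 →+* F`. -/
def intSub {𝔸 F : Type*} [CommRing 𝔸] [CommRing F] (i : 𝔸 →+* F) : Subring F :=
  letI := i.toAlgebra
  (integralClosure 𝔸 F).toSubring

theorem mem_intSub {𝔸 F : Type*} [CommRing 𝔸] [CommRing F] (i : 𝔸 →+* F) (z : F) :
    z ∈ intSub i ↔ i.IsIntegralElem z := Iff.rfl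

theorem map_mem_intSub {𝔸 F : Type*} [CommRing 𝔸] [CommRing F] (i : 𝔸 →+* F) (a : 𝔸) :
    i a ∈ intSub i := i.isIntegralElem_map

end Fermat.Agent.GAL.KNC
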