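import Fermat.Agent.GAL.KLC.Spans
import Fermat.Agent.S28.FinalCharts

/-!
# GAL / KNC / A / G2 : the embedding `F' = S28.Fp M → FL ℚ̄ M` and the fact that `FL ℚ̄ M = ℚ̄ · F'`
-/

set_option autoImplicit false
noncomputable section

namespace Fermat.Agent.GAL.KNC

open ModularCurve Fermat.Agent.GAL.KLC

variable (M : ℕ) [NeZero M]

theorem Fp_le_full : S28.Fp M ≤ modularFunctionFieldFull M := by
  rw [S28.Fp, IntermediateField.adjoin_le_iff]
  rintro x (⟨d, hd, rfl⟩ | ⟨d, hd, rfl⟩)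
  · exact xMem_jd_mem_full M d hd
  · exact ud_mem_full M d hd

/-- `F' → FL ℚ̄ M`, extension of the constants. -/
def embF : S28.Fp M →+* FL Qb M where
  toFun z := ⟨coeffEmb Qb (z : LaurentSeries ℚ), coeffEmb_mem_laurentBaseChange Qb (Fp_le_full M z.2)⟩
  map_one' := Subtype.ext (map_one (coeffEmb Qb))
  map_mul' _ _ := Subtype.ext (map_mul (coeffEmb Qb) _ _)
  map_zero' := Subtype.ext (map_zero (coeffEmb Qb))
  map_add' _ _ := Subtype.ext (map_add (coeffEmb Qb) _ _)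

@[simp] theorem coe_embF (z : S28.Fp M) :
    ((embF M z : FL Qb M) : LaurentSeries Qb) = coeffEmb Qb (z : LaurentSeries ℚ) := rfl

theorem embF_algebraMap (c : ℚ) :
    embF M (algebraMap ℚ (S28.Fp M) c) = algebraMap Qb (FL Qb M) (algebraMap ℚ Qb c) :=
  DFunLike.congr_fun (RingHom.ext_rat ((embF M).comp (algebraMap ℚ (S28.Fp M)))
    ((algebraMap Qb (FL Qb M)).comp (algebraMap ℚ Qb))) c

theorem embF_jF : embF M (S28.jF M) = jFb M := rfl

theorem embF_closure :
    Subfield.closure (Set.range (algebraMap Qb (FL Qb M)) ∪ Set.range (embF M)) = ⊤ := by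
  rw [eq_top_iff]
  rintro x -
  have hx : (x : LaurentSeries Qb) ∈ Subfield.closure
      (Set.range (algebraMap Qb (LaurentSeries Qb)) ∪
        (⇑(coeffEmb Qb) '' (modularFunctionFieldFull M : Set (LaurentSeries ℚ)))) :=
    mem_laurentBaseChange_iff.mp x.2
  set f : FL Qb M →+* LaurentSeries Qb := (FL Qb M).toSubfield.subtype with hf
  have hsub : Set.range (algebraMap Qb (LaurentSeries Qb)) ∪
        (⇑(coeffEmb Qb) '' (modularFunctionFieldFull M : Set (LaurentSeries ℚ))) ⊆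
      f '' (Set.range (algebraMap Qb (FL Qb M)) ∪ Set.range (embF M)) := by
    rintro y (⟨a, rfl⟩ | ⟨z, hz, rfl⟩)
    · exact ⟨algebraMap Qb (FL Qb M) a, Or.inl ⟨a, rfl⟩, rfl⟩
    · exact ⟨embF M ⟨z, S28.full_le_Fp M hz⟩, Or.inr ⟨_, rfl⟩, rfl⟩
  have h1 := Subfield.closure_mono hsub hx
  rw [← RingHom.map_field_closure] at h1
  obtain ⟨y, hy, hyx⟩ := h1
  have : y = x := Subtype.ext hyx
  rwa [← this]

/-- the form of `embF_closure` used by `KN.spans_baseChange`. -/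
theorem embF_gen (S : Subfield (FL Qb M)) (h1 : ∀ a : Qb, algebraMap Qb (FL Qb M) a ∈ S)
    (h2 : ∀ y : S28.Fp M, embF M y ∈ S) : S = ⊤ := by
  rw [eq_top_iff, ← embF_closure M, Subfield.closure_le]
  rintro y (⟨a, rfl⟩ | ⟨z, rfl⟩)
  · exact h1 a
  · exact h2 z

end Fermat.Agent.GAL.KNC
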