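import Fermat.Agent.GAL.KNC.A.Defs
import Fermat.Agent.S28.FieldSetup

/-!
# GAL / KNC / A1 : the integral closure is a finite module; every element is a fraction
-/

set_option autoImplicit false

namespace Fermat.Agent.GAL.KNC

variable {𝔸 F : Type*} [CommRing 𝔸] [IsDomain 𝔸] [Field F]

/-- the integral closure of a noetherian integrally closed domain in a finite (separable) extension of its
fraction field is a finite module. -/
theorem intSub_fg [IsIntegrallyClosed 𝔸] [IsNoetherianRing 𝔸] [CharZero F] (i : 𝔸 →+* F)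
    (hi : Function.Injective i) (hfd : FiniteDimensional (Subfield.closure (Set.range i)) F) :
    ∃ (m : ℕ) (g : Fin m → F), (∀ a, g a ∈ intSub i) ∧
      ∀ z ∈ intSub i, ∃ c : Fin m → 𝔸, z = ∑ a, i (c a) * g a := by
  let _ : Algebra 𝔸 (Subfield.closure (Set.range i)) := (S28.f1_cod i).toAlgebra
  let _ : Algebra 𝔸 F := i.toAlgebra
  have : IsFractionRing 𝔸 (Subfield.closure (Set.range i)) := S28.f1_isFractionRing i hi
  have : IsScalarTower 𝔸 (Subfield.closure (Set.range i)) F :=
    IsScalarTower.of_algebraMap_eq fun _ => rfl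
  have : CharZero (Subfield.closure (Set.range i)) :=
    ⟨fun a b hab => Nat.cast_injective (R := F) (by
      have := congrArg (Subtype.val) hab
      simpa using this)⟩
  have hfin : Module.Finite 𝔸 (integralClosure 𝔸 F) :=
    IsIntegralClosure.finite 𝔸 (Subfield.closure (Set.range i)) F (integralClosure 𝔸 F)
  obtain ⟨m, g, hg⟩ := Module.Finite.exists_fin (R := 𝔸) (M := integralClosure 𝔸 F)
  refine ⟨m, fun a => (g a : F), fun a => (g a).2, fun z hz => ?_⟩
  have hz' : (⟨z, hz⟩ : integralClosure 𝔸 F) ∈ Submodule.span 𝔸 (Set.range g) :=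
    hg ▸ Submodule.mem_top
  obtain ⟨c, hc⟩ := (Submodule.mem_span_range_iff_exists_fun 𝔸).1 hz'
  refine ⟨c, ?_⟩
  have h2 := congrArg (fun w : integralClosure 𝔸 F => (w : F)) hc
  simp only [AddSubmonoidClass.coe_finsetSum] at h2
  rw [← h2]
  rfl

/-- every element of `F` is a fraction of an integral element. -/
theorem exists_mul_mem_intSub (i : 𝔸 →+* F) (hi : Function.Injective i)
    (hfd : FiniteDimensional (Subfield.closure (Set.range i)) F) (z : F) :
    ∃ q : 𝔸, q ≠ 0 ∧ i q * z ∈ intSub i := by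
  let _ : Algebra 𝔸 (Subfield.closure (Set.range i)) := (S28.f1_cod i).toAlgebra
  let _ : Algebra 𝔸 F := i.toAlgebra
  have : IsFractionRing 𝔸 (Subfield.closure (Set.range i)) := S28.f1_isFractionRing i hi
  have : IsScalarTower 𝔸 (Subfield.closure (Set.range i)) F :=
    IsScalarTower.of_algebraMap_eq fun _ => rfl
  have := IsLocalization.isAlgebraic (Subfield.closure (Set.range i)) (nonZeroDivisors 𝔸)
  have := Algebra.IsAlgebraic.trans 𝔸 (Subfield.closure (Set.range i)) F
  obtain ⟨q, hq, h⟩ := (Algebra.IsAlgebraic.isAlgebraic (R := 𝔸) z).exists_integral_multiple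
  exact ⟨q, hq, h⟩

end Fermat.Agent.GAL.KNC
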