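import Fermat.Agent.GAL.KNC.A.Defs

/-!
# GAL / KNC / A2 : lifting a basis of `B / π B` (free over `κ[X]`) and Nakayama
-/

set_option autoImplicit false

namespace Fermat.Agent.GAL.KNC

open Polynomial

/-- a finitely generated `κ[τ]`-submodule of a field `E ∋ τ` (`τ` transcendental) is free. -/
theorem a2_free {κ E : Type*} [Field κ] [Field E] [Algebra κ E] (τ : E) (hτ : Transcendental κ τ)
    (S : AddSubgroup E) (hS : ∀ (p : κ[X]) (e : E), e ∈ S → aeval τ p * e ∈ S)
    (m : ℕ) (e : Fin m → E) (he : ∀ a, e a ∈ S)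
    (hgen : ∀ z ∈ S, ∃ c : Fin m → κ[X], z = ∑ a, aeval τ (c a) * e a) :
    ∃ (d : ℕ) (n : Fin d → E), (∀ a, n a ∈ S) ∧
      (∀ p : Fin d → κ[X], ∑ a, aeval τ (p a) * n a = 0 → p = 0) ∧
      ∀ z ∈ S, ∃ c : Fin d → κ[X], z = ∑ a, aeval τ (c a) * n a := by
  classical
  let algE : Algebra κ[X] E := (aeval τ : κ[X] →ₐ[κ] E).toRingHom.toAlgebra
  have hsm : ∀ (p : κ[X]) (x : E), p • x = aeval τ p * x := fun p x => rfl
  have hinj : Function.Injective (aeval τ : κ[X] →ₐ[κ] E) := transcendental_iff_injective.mp hτ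
  let Nb : Submodule κ[X] E :=
    { carrier := S
      add_mem' := S.add_mem
      zero_mem' := S.zero_mem
      smul_mem' := fun p x hx => hS p x hx }
  have hfin : Module.Finite κ[X] Nb := by
    rw [Module.Finite.iff_fg]
    refine ⟨Finset.univ.image e, le_antisymm ?_ ?_⟩
    · rw [Submodule.span_le]
      intro x hx
      rw [Finset.coe_image] at hx
      obtain ⟨a, -, rfl⟩ := hx
      exact he a
    · intro z hz
      obtain ⟨c, rfl⟩ := hgen z hz
      refine Submodule.sum_mem _ fun a _ => ?_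
      rw [← hsm]
      refine Submodule.smul_mem _ _ (Submodule.subset_span ?_)
      rw [Finset.coe_image]
      exact ⟨a, Finset.mem_coe.mpr (Finset.mem_univ a), rfl⟩
  have htf : Module.IsTorsionFree κ[X] Nb := by
    refine Module.IsTorsionFree.of_smul_eq_zero fun p x hpx => ?_
    have h1 : aeval τ p * (x : E) = 0 := congrArg Subtype.val hpx
    rcases mul_eq_zero.mp h1 with h | h
    · left
      exact hinj (by rw [h, map_zero])
    · right
      exact Subtype.ext h
  let bas := Module.finBasis κ[X] Nb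
  refine ⟨_, fun a => (bas a : E), fun a => (bas a).2, ?_, ?_⟩
  · intro p hp
    have h1 : ∑ a, p a • bas a = 0 := by
      apply Subtype.ext
      rw [Submodule.coe_sum]
      exact hp
    funext a
    exact Fintype.linearIndependent_iff.mp bas.linearIndependent p h1 a
  · intro z hz
    refine ⟨fun a => bas.repr ⟨z, hz⟩ a, ?_⟩
    have h1 := congrArg Subtype.val (bas.sum_repr ⟨z, hz⟩)
    rw [Submodule.coe_sum] at h1
    exact h1.symm

/-- Nakayama. -/
theorem a2_nakayama {A F : Type*} [CommRing A] [CommRing F] (i : A →+* F) (Bs : Set F)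
    (m : ℕ) (g : Fin m → F) (hg : ∀ a, g a ∈ Bs)
    (hgen : ∀ z ∈ Bs, ∃ c : Fin m → A, z = ∑ a, i (c a) * g a)
    (d : ℕ) (b : Fin d → F) (ϖ : A)
    (h : ∀ z ∈ Bs, ∃ c : Fin d → A, ∃ y ∈ Bs, z = ∑ a, i (c a) * b a + i ϖ * y) :
    ∃ r : A, (∃ u, u * ϖ = r - 1) ∧
      ∀ z ∈ Bs, ∃ c : Fin d → A, i r * z = ∑ a, i (c a) * b a := by
  classical
  let _ : Algebra A F := i.toAlgebra
  have hsm : ∀ (a : A) (x : F), a • x = i a * x := fun a x => rfl
  let N : Submodule A F := Submodule.span A (Set.range b)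
  let Bm : Submodule A F := Submodule.span A (Set.range g)
  have hBm : ∀ z ∈ Bs, z ∈ Bm := by
    intro z hz
    obtain ⟨c, rfl⟩ := hgen z hz
    refine Submodule.sum_mem _ fun a _ => ?_
    rw [← hsm]
    exact Submodule.smul_mem _ _ (Submodule.subset_span ⟨a, rfl⟩)
  let Q : Submodule A (F ⧸ N) := Bm.map N.mkQ
  have hQfg : Q.FG := (Submodule.fg_span (Set.finite_range g)).map _
  have hle : Q ≤ Ideal.span {ϖ} • Q := by
    rw [Submodule.map_le_iff_le_comap, Submodule.span_le]
    rintro _ ⟨a, rfl⟩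
    obtain ⟨c, y, hy, hz⟩ := h (g a) (hg a)
    show N.mkQ (g a) ∈ Ideal.span {ϖ} • Q
    have h1 : N.mkQ (g a) = ϖ • N.mkQ y := by
      rw [← map_smul, hsm, Submodule.mkQ_apply, Submodule.mkQ_apply, Submodule.Quotient.eq, hz,
        add_sub_cancel_right]
      refine Submodule.sum_mem _ fun a _ => ?_
      rw [← hsm]
      exact Submodule.smul_mem _ _ (Submodule.subset_span ⟨a, rfl⟩)
    rw [h1]
    exact Submodule.smul_mem_smul (Ideal.subset_span rfl) (Submodule.mem_map_of_mem (hBm y hy))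
  obtain ⟨r, hr1, hr⟩ :=
    Submodule.exists_sub_one_mem_and_smul_eq_zero_of_fg_of_le_smul (Ideal.span {ϖ}) Q hQfg hle
  refine ⟨r, Ideal.mem_span_singleton'.mp hr1, fun z hz => ?_⟩
  have h1 := hr (N.mkQ z) (Submodule.mem_map_of_mem (hBm z hz))
  rw [← map_smul, Submodule.mkQ_apply, Submodule.Quotient.mk_eq_zero,
    Submodule.mem_span_range_iff_exists_fun] at h1
  obtain ⟨c, hc⟩ := h1
  exact ⟨c, hc.symm⟩

/-- `B` = integral closure of `R₀[X]` in `F` (finite module), `red : B → E` a ring homomorphism with kernel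
`π B`, compatible with `res : R₀ → κ` and `X ↦ τ`, `τ` transcendental over `κ`.  Then there are
`b₁ … b_d ∈ B` whose reductions are linearly independent over `κ[τ]` and `s ≡ 1 mod π` with
`s B ⊆ ∑ R₀[X] b_a`. -/
theorem exists_basis_mod {R₀ κ F E : Type*} [CommRing R₀] [Field κ] [Field F] [Field E]
    [Algebra κ E] (res : R₀ →+* κ) (hres : Function.Surjective res) (π : R₀) (hπ : res π = 0)
    (i : R₀[X] →+* F)
    (hfg : ∃ (m : ℕ) (g : Fin m → F), (∀ a, g a ∈ intSub i) ∧
      ∀ z ∈ intSub i, ∃ c : Fin m → R₀[X], z = ∑ a, i (c a) * g a)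
    (red : intSub i →+* E) (τ : E) (hτ : Transcendental κ τ)
    (hred : ∀ p : R₀[X], red ⟨i p, map_mem_intSub i p⟩ = aeval τ (p.map res))
    (hker : ∀ z : intSub i, red z = 0 → ∃ y : intSub i, (z : F) = i (C π) * (y : F)) :
    ∃ (d : ℕ) (b : Fin d → intSub i),
      (∀ p : Fin d → κ[X], ∑ a, aeval τ (p a) * red (b a) = 0 → p = 0) ∧
      ∃ s : R₀[X], s.map res = 1 ∧
        ∀ z ∈ intSub i, ∃ c : Fin d → R₀[X], i s * z = ∑ a, i (c a) * (b a : F) := by
  classical
  obtain ⟨m, g, hg, hgen⟩ := hfg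
  have hlift : ∀ p : κ[X], ∃ P : R₀[X], P.map res = p := Polynomial.map_surjective res hres
  -- the reduction of a linear combination
  have hredsum : ∀ (n : ℕ) (c : Fin n → R₀[X]) (y : Fin n → intSub i),
      red (∑ a, ⟨i (c a), map_mem_intSub i (c a)⟩ * y a) =
        ∑ a, aeval τ ((c a).map res) * red (y a) := by
    intro n c y
    rw [map_sum]
    refine Finset.sum_congr rfl fun a _ => ?_
    rw [map_mul, hred]
  obtain ⟨d, n, hn, hind, hspan⟩ := a2_free τ hτ red.range.toAddSubgroup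
    (by
      rintro p _ ⟨z, rfl⟩
      obtain ⟨P, rfl⟩ := hlift p
      exact ⟨⟨i P, map_mem_intSub i P⟩ * z, by rw [map_mul, hred]⟩)
    m (fun a => red ⟨g a, hg a⟩) (fun a => ⟨_, rfl⟩)
    (by
      rintro _ ⟨z, rfl⟩
      obtain ⟨c, hc⟩ := hgen z z.2
      refine ⟨fun a => (c a).map res, ?_⟩
      rw [← hredsum m c (fun a => ⟨g a, hg a⟩)]
      congr 1
      apply Subtype.ext
      rw [hc, AddSubmonoidClass.coe_finsetSum]
      rfl)
  choose b hb using hn
  refine ⟨d, b, ?_, ?_⟩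
  · intro p hp
    apply hind p
    rw [← hp]
    exact Finset.sum_congr rfl fun a _ => by rw [hb a]
  · obtain ⟨r, ⟨u, hu⟩, hr⟩ := a2_nakayama i (intSub i : Set F) m g hg hgen d
      (fun a => (b a : F)) (C π)
      (by
        intro z hz
        obtain ⟨c, hc⟩ := hspan (red ⟨z, hz⟩) ⟨_, rfl⟩
        choose P hP using fun a => hlift (c a)
        have h0 : red (⟨z, hz⟩ - ∑ a, ⟨i (P a), map_mem_intSub i (P a)⟩ * b a) = 0 := by
          rw [map_sub, hredsum d P b, hc, sub_eq_zero]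
          exact Finset.sum_congr rfl fun a _ => by rw [hP a, hb a]
        obtain ⟨y, hy⟩ := hker _ h0
        refine ⟨P, y, y.2, ?_⟩
        rw [← hy, AddSubgroupClass.coe_sub, AddSubmonoidClass.coe_finsetSum]
        simp)
    refine ⟨r, ?_, hr⟩
    have h1 : r = u * C π + 1 := by rw [hu]; ring
    rw [h1, Polynomial.map_add, Polynomial.map_mul, Polynomial.map_C, hπ, Polynomial.map_one]
    simp

end Fermat.Agent.GAL.KNC

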