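import Fermat.Agent.GAL.KNC.RedData
import Fermat.Agent.S28.Charts

/-!
# GAL / KNC / A / G3 : series with `ℤ_(ℓ)`-coefficients are integral for the Gauss valuation and reduce coefficientwise
-/

set_option autoImplicit false
noncomputable section

namespace Fermat.Agent.GAL.KNC

open ModularCurve Fermat.Agent.GR Fermat.Agent.GAL.KL Fermat.Agent.GAL.KLC

variable {A : ValuationSubring Qb} {ℓ : ℕ}

/-- `ℤ_(ℓ) ⊆ A`. -/
theorem algebraMap_mem_of_mem_Zl (hℓ : ℓ.Prime) (hA : A.LiesOverPrime ℓ) {c : ℚ}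
    (hc : c ∈ GaloisRep.ratLocalizedAt ℓ) : algebraMap ℚ Qb c ∈ A := by
  have := charP_residueField hℓ hA
  have hd : IsUnit ((c.den : ℕ) : A) := by
    rw [← IsLocalRing.residue_ne_zero_iff_isUnit, map_natCast, Ne,
      CharP.cast_eq_zero_iff (IsLocalRing.ResidueField A) ℓ]
    intro h
    exact hℓ.one_lt.ne' (Nat.Coprime.eq_one_of_dvd (Nat.Coprime.symm hc) h)
  obtain ⟨u, hu⟩ := hd
  have h1 : algebraMap ℚ Qb c = (((c.num : A) * ((u⁻¹ : Aˣ) : A) : A) : Qb) := by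
    have h2 : (((u : A) * ((u⁻¹ : Aˣ) : A) : A) : Qb) = 1 := by
      rw [Units.mul_inv]; rfl
    rw [hu] at h2
    have h3 : ((c.den : ℕ) : Qb) * (((u⁻¹ : Aˣ) : A) : Qb) = 1 := by
      simpa using h2
    have h4 : ((c.den : ℕ) : Qb) ≠ 0 := Nat.cast_ne_zero.mpr c.den_ne_zero
    have h5 : algebraMap ℚ Qb c * ((c.den : ℕ) : Qb) = (c.num : Qb) := by
      rw [← map_natCast (algebraMap ℚ Qb), ← map_mul, Rat.mul_den_eq_num, map_intCast]
    have h6 : (((c.num : A) * ((u⁻¹ : Aˣ) : A) : A) : Qb) = (c.num : Qb) * (((u⁻¹ : Aˣ) : A) : Qb) := by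
      simp
    rw [h6, ← h5, mul_assoc, h3, mul_one]
  rw [h1]
  exact Subtype.property _

/-- `ℤ_(ℓ) → A`. -/
def zlToA (hℓ : ℓ.Prime) (hA : A.LiesOverPrime ℓ) : S28.Zl ℓ →+* A where
  toFun c := ⟨algebraMap ℚ Qb (c : ℚ), algebraMap_mem_of_mem_Zl hℓ hA c.2⟩
  map_one' := Subtype.ext (by simp)
  map_mul' a b := Subtype.ext (by simp)
  map_zero' := Subtype.ext (by simp)
  map_add' a b := Subtype.ext (by simp)

/-- the prime field of the residue field of `A`. -/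
def phiA (hℓ : ℓ.Prime) (hA : A.LiesOverPrime ℓ) : ZMod ℓ →+* kA A :=
  haveI := charP_residueField hℓ hA
  ZMod.castHom (dvd_refl ℓ) (kA A)

variable [Fact ℓ.Prime]

/-- a series with coefficients in `ℤ_(ℓ)` has the coefficientwise reduction. -/
theorem hasRed_of_cZl (hA : A.LiesOverPrime ℓ) (φ : ZMod ℓ →+* kA A) (z : S28.cZl ℓ) :
    HasRed A (coeffEmb Qb (z : LaurentSeries ℚ)) (coeffMap φ (S28.cZlRed ℓ z)) := by
  have hℓ : ℓ.Prime := Fact.out
  obtain ⟨y, hy⟩ := exists_int_of_coeff_mem A (coeffEmb Qb (z : LaurentSeries ℚ)) (fun k =>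
    algebraMap_mem_of_mem_Zl hℓ hA ((S28.charts_mem_cZl_iff ℓ _).mp z.2 k))
  have h := HasRed.of_int (A := A) y
  rw [hy] at h
  convert h using 1
  ext n
  rw [coeffMap_coeff, coeffMap_coeff, S28.cZlRed_coeff]
  have e : φ.comp (S28.resZ ℓ) = (IsLocalRing.residue A).comp (zlToA hℓ hA) :=
    S28.ratLocalizedAt_ringHom_ext ℓ _ _
  have e1 := DFunLike.congr_fun e
    ⟨(z : LaurentSeries ℚ).coeff n, (S28.charts_mem_cZl_iff ℓ _).mp z.2 n⟩
  rw [RingHom.comp_apply, RingHom.comp_apply] at e1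
  rw [e1]
  congr 1
  apply Subtype.ext
  have := congrArg (fun s => HahnSeries.coeff s n) hy
  exact this.symm

variable (M : ℕ)

theorem vG_le_one_of_cZl (hA : A.LiesOverPrime ℓ) (x : FL Qb M) (z : S28.cZl ℓ)
    (hx : (x : LaurentSeries Qb) = coeffEmb Qb (z : LaurentSeries ℚ)) : vG A M x ≤ 1 := by
  rw [ValThm_le_one_iff]
  exact ⟨_, hx ▸ hasRed_of_cZl hA (phiA Fact.out hA) z⟩

theorem redData_red_of_cZl (hA : A.LiesOverPrime ℓ) (φ : ZMod ℓ →+* kA A) (x : FL Qb M)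
    (z : S28.cZl ℓ) (hx : (x : LaurentSeries Qb) = coeffEmb Qb (z : LaurentSeries ℚ)) :
    (redData A M).red x = coeffMap φ (S28.cZlRed ℓ z) :=
  redData_red_of_hasRed A M (hx ▸ hasRed_of_cZl hA φ z)

/-- reduction of a series with integer coefficients. -/
theorem cZlRed_of_int (y : LaurentSeries ℤ) (h : coeffMap (Int.castRingHom ℚ) y ∈ S28.cZl ℓ) :
    S28.cZlRed ℓ ⟨coeffMap (Int.castRingHom ℚ) y, h⟩ = coeffMap (Int.castRingHom (ZMod ℓ)) y := by
  ext n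
  rw [S28.cZlRed_coeff]
  have : (⟨(coeffMap (Int.castRingHom ℚ) y).coeff n, (S28.charts_mem_cZl_iff ℓ _).mp h n⟩ : S28.Zl ℓ)
      = ((y.coeff n : ℤ) : S28.Zl ℓ) := Subtype.ext (by simp)
  refine (congrArg (S28.resZ ℓ) this).trans ?_
  rw [map_intCast]
  rfl

theorem coeffMap_int_mem_cZl (ℓ : ℕ) (y : LaurentSeries ℤ) :
    coeffMap (Int.castRingHom ℚ) y ∈ S28.cZl ℓ := by
  rw [S28.charts_mem_cZl_iff]
  intro n
  rw [coeffMap_coeff]
  exact intCast_mem _ _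

end Fermat.Agent.GAL.KNC
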