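import Fermat.Agent.GAL.KN.Red

/-!
# GAL / KNC / A3 : a family of `O_v` whose reductions are independent over `k[t̄]` is orthonormal
-/

set_option autoImplicit false

namespace Fermat.Agent.GAL.KNC

open Polynomial Fermat.Agent.GAL.KL Fermat.Agent.GAL.KN

variable {L F Γ₀ : Type*} [Field L] [Field F] [Algebra L F] [LinearOrderedCommGroupWithZero Γ₀]
  {v : Valuation F Γ₀} {t : F} {k E : Type*} [Field k] [Field E] [Algebra k E]

theorem on_of_indep (D : RedData L v k E) (hG : Gauss L v t) {d : ℕ} (β : Fin d → F)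
    (hβ : ∀ i, v (β i) ≤ 1)
    (hind : ∀ p : Fin d → k[X], comb k (D.red t) p (fun i => D.red (β i)) = 0 → p = 0) :
    ON L v t β := by
  intro p γ
  constructor
  · intro h
    rcases Nat.eq_zero_or_pos d with rfl | hd
    · exact fun i => i.elim0
    obtain ⟨i₀, -, hmax⟩ := Finset.exists_max_image (Finset.univ : Finset (Fin d))
      (fun i => v (aeval t (p i))) ⟨⟨0, hd⟩, Finset.mem_univ _⟩
    have hmax' : ∀ i, v (aeval t (p i)) ≤ v (aeval t (p i₀)) := fun i => hmax i (Finset.mem_univ i)
    suffices hμ : v (aeval t (p i₀)) ≤ γ from fun i => (hmax' i).trans hμ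
    rcases eq_or_ne (v (aeval t (p i₀))) 0 with h0 | h0
    · rw [h0]; exact zero_le
    obtain ⟨a, ha⟩ := hG.exists_const (p i₀)
    have hva : v (algebraMap L F a) ≠ 0 := ha ▸ h0
    have hva' : ∀ q : L[X], v (aeval t (C a⁻¹ * q)) = (v (algebraMap L F a))⁻¹ * v (aeval t q) := by
      intro q
      rw [map_mul, aeval_C, map_mul, map_inv₀, map_inv₀]
    have hle : ∀ i, v (aeval t (C a⁻¹ * p i)) ≤ 1 := by
      intro i
      rw [hva', ← ha, inv_mul_le_iff₀ (zero_lt_iff.mpr h0), mul_one]
      exact hmax' i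
    choose p'' hp'' using fun i => RedData.exists_up (D := D) hG (C a⁻¹ * p i) (hle i)
    have hi₀ : D.dn (p'' i₀) ≠ 0 := by
      rw [Ne, RedData.dn_eq_zero_iff hG, hp'', hva', ← ha, inv_mul_cancel₀ h0]
      exact lt_irrefl _
    have hred := RedData.red_comb hG β hβ p''
    have hne : D.red (comb L t (fun i => D.up (p'' i)) β) ≠ 0 := by
      rw [hred]
      intro h1
      exact hi₀ (congrFun (hind _ h1) i₀)
    have hle1 := RedData.v_comb_up_le hG β hβ p''
    rw [Ne, D.red_eq_zero_iff hle1, not_lt] at hne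
    have h1 : v (comb L t (fun i => D.up (p'' i)) β) = 1 := le_antisymm hle1 hne
    simp only [hp''] at h1
    rw [comb_smul, map_mul, aeval_C, map_inv₀, map_inv₀, ← ha,
      inv_mul_eq_one₀ h0] at h1
    rw [h1]
    exact h
  · intro h
    unfold comb
    refine v.map_sum_le fun i _ => ?_
    rw [map_mul]
    exact (mul_le_of_le_one_right' (hβ i)).trans (h i)

end Fermat.Agent.GAL.KNC
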