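import Fermat.Agent.GAL.KNC.A.Defs
import Fermat.Agent.GAL.KNC.A.Emb
import Fermat.Agent.GAL.KNC.A.HasRedZl
import Fermat.Agent.GAL.CT.Sep

/-!
# GAL / KNC / A / G1 : the reduction map on the integral closure of `ℤ_(ℓ)[t]` in `F' = S28.Fp M`

`t : F'` any element with `ℤ_(ℓ)`-integral `q`-expansion.  For `t = j` the kernel of the reduction is `ℓ B_j`
(the `q`-expansion principle `S28.core_fin`).
-/

set_option autoImplicit false
noncomputable section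

namespace Fermat.Agent.GAL.KNC

open ModularCurve Polynomial Fermat.Agent.GAL.KLC

variable (M ℓ : ℕ) [NeZero M] [Fact ℓ.Prime]

/-- constants `ℤ_(ℓ) → ℤ_(ℓ)((q))`. -/
def cZlC : S28.Zl ℓ →+* S28.cZl ℓ :=
  (S28.coeffEquiv (Γ := ℤ) (GaloisRep.ratLocalizedAt ℓ)).toRingHom.comp HahnSeries.C

theorem coe_cZlC (a : S28.Zl ℓ) : ((cZlC ℓ a : S28.cZl ℓ) : LaurentSeries ℚ) = HahnSeries.C (a : ℚ) := by
  ext n
  show (((HahnSeries.C a : LaurentSeries (S28.Zl ℓ)).coeff n : S28.Zl ℓ) : ℚ) = _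
  simp only [HahnSeries.C_apply, HahnSeries.coeff_single]
  split_ifs <;> rfl

theorem cZlRed_cZlC (a : S28.Zl ℓ) : S28.cZlRed ℓ (cZlC ℓ a) = HahnSeries.C (S28.resZ ℓ a) := by
  ext n
  rw [S28.cZlRed_coeff]
  by_cases h : n = 0
  · rw [HahnSeries.C_apply, h, HahnSeries.coeff_single_same]
    congr 1
    apply Subtype.ext
    show ((cZlC ℓ a : S28.cZl ℓ) : LaurentSeries ℚ).coeff 0 = _
    rw [coe_cZlC, HahnSeries.C_apply, HahnSeries.coeff_single_same]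
  · rw [HahnSeries.C_apply, HahnSeries.coeff_single_of_ne h, ← map_zero (S28.resZ ℓ)]
    congr 1
    apply Subtype.ext
    show ((cZlC ℓ a : S28.cZl ℓ) : LaurentSeries ℚ).coeff n = _
    rw [coe_cZlC, HahnSeries.C_apply, HahnSeries.coeff_single_of_ne h]
    rfl

variable {M ℓ}

/-- `ℤ_(ℓ)[X] → ℤ_(ℓ)((q))`, `X ↦ t`. -/
def iTc (t : S28.Fp M) (ht : (t : LaurentSeries ℚ) ∈ S28.cZl ℓ) : (S28.Zl ℓ)[X] →+* S28.cZl ℓ :=
  eval₂RingHom (cZlC ℓ) ⟨t, ht⟩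

theorem coe_iTc (t : S28.Fp M) (ht : (t : LaurentSeries ℚ) ∈ S28.cZl ℓ) (p : (S28.Zl ℓ)[X]) :
    ((iTc t ht p : S28.cZl ℓ) : LaurentSeries ℚ) = ((S28.iT M ℓ t p : S28.Fp M) : LaurentSeries ℚ) := by
  have : (S28.cZl ℓ).subtype.comp (iTc t ht) =
      ((S28.Fp M).toSubfield.subtype).comp (S28.iT M ℓ t) := by
    apply Polynomial.ringHom_ext
    · intro a
      simp only [RingHom.comp_apply, iTc, S28.iT, coe_eval₂RingHom, eval₂_C]
      have e : (S28.cZl ℓ).subtype (cZlC ℓ a) = HahnSeries.C (a : ℚ) := coe_cZlC ℓ a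
      rw [e, ← GR.algebraMap_eq_C]
      exact DFunLike.congr_fun (RingHom.ext_rat (algebraMap ℚ (LaurentSeries ℚ))
        ((S28.Fp M).toSubfield.subtype.comp (algebraMap ℚ (S28.Fp M)))) (a : ℚ)
    · simp only [RingHom.comp_apply, iTc, S28.iT, coe_eval₂RingHom, eval₂_X]
      rfl
  exact DFunLike.congr_fun this p

theorem isIntegral_cZl (t : S28.Fp M) (ht : (t : LaurentSeries ℚ) ∈ S28.cZl ℓ) (z : S28.Fp M)
    (hz : (S28.iT M ℓ t).IsIntegralElem z) : IsIntegral (S28.cZl ℓ) (z : LaurentSeries ℚ) := by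
  obtain ⟨p, hmonic, hroot⟩ := hz
  refine ⟨p.map (iTc t ht), hmonic.map _, ?_⟩
  have hcomp : (algebraMap (S28.cZl ℓ) (LaurentSeries ℚ)).comp (iTc t ht) =
      ((S28.Fp M).toSubfield.subtype).comp (S28.iT M ℓ t) :=
    RingHom.ext fun p => coe_iTc t ht p
  rw [eval₂_map, hcomp]
  have h2 := hom_eval₂ p (S28.iT M ℓ t) ((S28.Fp M).toSubfield.subtype) z
  rw [hroot, map_zero] at h2
  exact h2.symm

/-- elements integral over `ℤ_(ℓ)[t]` have `ℤ_(ℓ)`-integral `q`-expansions. -/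
theorem mem_cZl_of_isIntegralElem (t : S28.Fp M) (ht : (t : LaurentSeries ℚ) ∈ S28.cZl ℓ)
    (z : S28.Fp M) (hz : (S28.iT M ℓ t).IsIntegralElem z) : (z : LaurentSeries ℚ) ∈ S28.cZl ℓ := by
  obtain ⟨b, hb, hb0, hbx⟩ := S28.charts_exists_frac ℓ M (Fp_le_full M z.2)
  exact S28.mem_coeffSubring_of_isIntegral (Γ := ℤ) (E := ℚ) (GaloisRep.ratLocalizedAt ℓ) (ℓ : ℚ)
    (S28.isDVRIn_ratLocalizedAt ℓ) (z : LaurentSeries ℚ) b (isIntegral_cZl t ht z hz) hb0 hb hbx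

/-- `B_t → ℤ_(ℓ)((q))`. -/
def toC (t : S28.Fp M) (ht : (t : LaurentSeries ℚ) ∈ S28.cZl ℓ) :
    intSub (S28.iT M ℓ t) →+* S28.cZl ℓ where
  toFun z := ⟨((z : S28.Fp M) : LaurentSeries ℚ), mem_cZl_of_isIntegralElem t ht z z.2⟩
  map_one' := rfl
  map_mul' _ _ := rfl
  map_zero' := rfl
  map_add' _ _ := rfl

/-- the reduction `B_t → 𝔽_ℓ((q))`. -/
def redT (t : S28.Fp M) (ht : (t : LaurentSeries ℚ) ∈ S28.cZl ℓ) :
    intSub (S28.iT M ℓ t) →+* LaurentSeries (ZMod ℓ) :=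
  (S28.cZlRed ℓ).comp (toC t ht)

theorem redT_apply (t : S28.Fp M) (ht : (t : LaurentSeries ℚ) ∈ S28.cZl ℓ)
    (z : intSub (S28.iT M ℓ t)) : redT t ht z = S28.cZlRed ℓ (toC t ht z) := rfl

theorem redT_iT (t : S28.Fp M) (ht : (t : LaurentSeries ℚ) ∈ S28.cZl ℓ) (p : (S28.Zl ℓ)[X]) :
    redT t ht ⟨S28.iT M ℓ t p, map_mem_intSub _ p⟩ =
      aeval (S28.cZlRed ℓ ⟨t, ht⟩) (p.map (S28.resZ ℓ)) := by
  have h1 : toC t ht ⟨S28.iT M ℓ t p, map_mem_intSub _ p⟩ = iTc t ht p :=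
    Subtype.ext (coe_iTc t ht p).symm
  rw [redT_apply, h1]
  have : (S28.cZlRed ℓ).comp (iTc t ht) =
      ((aeval (S28.cZlRed ℓ ⟨t, ht⟩) : (ZMod ℓ)[X] →ₐ[ZMod ℓ] LaurentSeries (ZMod ℓ)) :
        (ZMod ℓ)[X] →+* LaurentSeries (ZMod ℓ)).comp (mapRingHom (S28.resZ ℓ)) := by
    apply Polynomial.ringHom_ext
    · intro a
      simp only [RingHom.comp_apply, iTc, coe_eval₂RingHom, eval₂_C, coe_mapRingHom, map_C,
        RingHom.coe_coe, aeval_C]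
      rw [cZlRed_cZlC, GR.algebraMap_eq_C]
    · simp only [RingHom.comp_apply, iTc, coe_eval₂RingHom, eval₂_X, coe_mapRingHom, map_X,
        RingHom.coe_coe, aeval_X]
  exact DFunLike.congr_fun this p

theorem redT_eq_zero_iff (t : S28.Fp M) (ht : (t : LaurentSeries ℚ) ∈ S28.cZl ℓ)
    (z : intSub (S28.iT M ℓ t)) : redT t ht z = 0 ↔
      ∀ n : ℤ, ∃ c ∈ GaloisRep.ratLocalizedAt ℓ,
        ((z : S28.Fp M) : LaurentSeries ℚ).coeff n = (ℓ : ℚ) * c :=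
  S28.cZlRed_eq_zero_iff ℓ _

theorem iT_C_natCast (t : S28.Fp M) : S28.iT M ℓ t (C (ℓ : S28.Zl ℓ)) = (ℓ : S28.Fp M) := by
  rw [map_natCast (C : S28.Zl ℓ →+* (S28.Zl ℓ)[X]), map_natCast]

variable (M ℓ)

theorem jF_mem_cZl : ((S28.jF M : S28.Fp M) : LaurentSeries ℚ) ∈ S28.cZl ℓ := S28.charts_jq_mem ℓ

theorem cZlRed_jF : S28.cZlRed ℓ ⟨(S28.jF M : S28.Fp M), jF_mem_cZl M ℓ⟩ = jqModC (ZMod ℓ) := by
  have h1 : ((S28.jF M : S28.Fp M) : LaurentSeries ℚ) = coeffMap (Int.castRingHom ℚ) (jqModC ℤ) := by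
    rw [coeffMap_jqModC]; rfl
  have h2 := cZlRed_of_int (ℓ := ℓ) (jqModC ℤ) (coeffMap_int_mem_cZl ℓ _)
  rw [← coeffMap_jqModC (Int.castRingHom (ZMod ℓ)), ← h2]
  congr 1
  exact Subtype.ext h1

/-- **the `q`-expansion principle for `B_j`**: the kernel of the reduction is `ℓ B_j`. -/
theorem redT_jF_ker (hℓM : ¬ ℓ ∣ M) (z : intSub (S28.iT M ℓ (S28.jF M)))
    (hz : redT (S28.jF M) (jF_mem_cZl M ℓ) z = 0) :
    ∃ y : intSub (S28.iT M ℓ (S28.jF M)),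
      (z : S28.Fp M) = S28.iT M ℓ (S28.jF M) (C (ℓ : S28.Zl ℓ)) * y := by
  obtain ⟨g, hg, hzg⟩ := S28.core_fin M ℓ (NeZero.ne M) hℓM z z.2
    ((redT_eq_zero_iff _ _ z).mp hz)
  exact ⟨⟨g, hg⟩, by rw [iT_C_natCast]; exact hzg⟩

/-- a series over a field with a simple pole is transcendental over the constants. -/
theorem transcendental_of_order {k : Type*} [Field k] (τ : LaurentSeries k) (hτ : τ.order = -1) :
    Transcendental k τ := by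
  rw [transcendental_iff]
  intro p hp
  by_contra h
  exact CT.a7_aeval_ne_zero (AlgHom.id k (LaurentSeries k)) τ hτ h hp

theorem transcendental_jqModC : Transcendental (ZMod ℓ) (jqModC (ZMod ℓ)) :=
  transcendental_of_order _ (S28.order_jqModC (K := ZMod ℓ))

end Fermat.Agent.GAL.KNC
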