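import Fermat.Agent.GAL.KL.Defs

/-!
# GAL / KNC / A5 : `Spans` is stable under extension of the constant field
-/

set_option autoImplicit false

namespace Fermat.Agent.GAL.KNC

open Polynomial Fermat.Agent.GAL.KL

open IntermediateField in
/-- a family which spans `F` as a vector space over the field `L(t)` satisfies `Spans`. -/
theorem a5_spans_of_mem_span {L F : Type*} [Field L] [Field F] [Algebra L F] (t : F)
    (ht : ∀ p : L[X], aeval t p = 0 → p = 0) {d : ℕ} (β : Fin d → F)
    (h : ∀ x : F, x ∈ Submodule.span L⟮t⟯ (Set.range β)) : Spans L t β := by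
  intro x
  obtain ⟨c, hc⟩ := (Submodule.mem_span_range_iff_exists_fun _).1 (h x)
  have h1 : ∀ i, ∃ r s : L[X], s ≠ 0 ∧ (c i : F) = aeval t r / aeval t s := by
    intro i
    obtain ⟨r, s, hrs⟩ := (IntermediateField.mem_adjoin_simple_iff L (c i : F)).1 (c i).2
    by_cases hs : s = 0
    · refine ⟨0, 1, one_ne_zero, ?_⟩
      rw [hrs, hs]
      simp
    · exact ⟨r, s, hs, hrs⟩
  choose r s hs hrs using h1
  refine ⟨∏ i, s i, fun i => r i * ∏ j ∈ Finset.univ.erase i, s j,
    Finset.prod_ne_zero_iff.2 (fun i _ => hs i), ?_⟩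
  rw [← hc, comb, Finset.mul_sum]
  refine Finset.sum_congr rfl fun i _ => ?_
  have hne : aeval t (s i) ≠ 0 := fun h0 => hs i (ht _ h0)
  rw [← Finset.mul_prod_erase Finset.univ s (Finset.mem_univ i), map_mul, map_mul,
    Algebra.smul_def, IntermediateField.algebraMap_apply, hrs i]
  field_simp

/-- `ι` commutes with evaluation of polynomials. -/
theorem a5_map_aeval {K₀ L F₀ F : Type*} [Field K₀] [Field L] [Field F₀] [Field F]
    [Algebra K₀ L] [Algebra K₀ F₀] [Algebra L F] (ι : F₀ →+* F)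
    (hι : ∀ c : K₀, ι (algebraMap K₀ F₀ c) = algebraMap L F (algebraMap K₀ L c))
    (t₀ : F₀) (p : K₀[X]) : ι (aeval t₀ p) = aeval (ι t₀) (p.map (algebraMap K₀ L)) := by
  rw [aeval_def, aeval_def, eval₂_map, hom_eval₂]
  congr 1
  ext c
  exact hι c

open IntermediateField in
theorem a5_aeval_mem {L F : Type*} [Field L] [Field F] [Algebra L F] (t : F) (p : L[X]) :
    aeval t p ∈ L⟮t⟯ :=
  (IntermediateField.mem_adjoin_simple_iff L _).2 ⟨p, 1, by simp⟩

/-- a finite dimensional subspace of a field, stable under multiplication and containing `1`, is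
stable under inverses. -/
theorem a5_inv_mem {E F : Type*} [Field E] [Field F] [Algebra E F] (W : Submodule E F)
    [FiniteDimensional E W] (h1 : (1 : F) ∈ W) (hmul : ∀ x y, x ∈ W → y ∈ W → x * y ∈ W)
    {x : F} (hx : x ∈ W) : x⁻¹ ∈ W := by
  by_cases hx0 : x = 0
  · rw [hx0, inv_zero]; exact W.zero_mem
  let f : W →ₗ[E] W := (LinearMap.mulLeft E x).restrict (fun y hy => hmul x y hx hy)
  have hinj : Function.Injective f := by
    intro y z hyz
    have h2 : x * (y : F) = x * (z : F) := congrArg Subtype.val hyz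
    exact Subtype.ext (mul_left_cancel₀ hx0 h2)
  obtain ⟨y, hy⟩ := (LinearMap.injective_iff_surjective.1 hinj) ⟨1, h1⟩
  have h2 : x * (y : F) = 1 := congrArg Subtype.val hy
  rw [← eq_inv_of_mul_eq_one_right h2]
  exact y.2

open IntermediateField in
/-- `F` is generated (as a field) by `L` and the image of `F₀`; a family which spans `F₀` over `K₀(t₀)`
spans `F` over `L(t)`. -/
theorem spans_baseChange {K₀ L F₀ F : Type*} [Field K₀] [Field L] [Field F₀] [Field F]
    [Algebra K₀ L] [Algebra K₀ F₀] [Algebra L F] (ι : F₀ →+* F)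
    (hι : ∀ c : K₀, ι (algebraMap K₀ F₀ c) = algebraMap L F (algebraMap K₀ L c))
    (hgen : Subfield.closure (Set.range (algebraMap L F) ∪ Set.range ι) = ⊤)
    (t₀ : F₀) (ht : ∀ p : L[X], aeval (ι t₀) p = 0 → p = 0) {d : ℕ} (b : Fin d → F₀)
    (hb : Spans K₀ t₀ b) : Spans L (ι t₀) (fun a => ι (b a)) := by
  apply a5_spans_of_mem_span (ι t₀) ht
  set W : Submodule L⟮ι t₀⟯ F := Submodule.span L⟮ι t₀⟯ (Set.range fun a => ι (b a)) with hW
  have hfd : FiniteDimensional L⟮ι t₀⟯ W :=
    FiniteDimensional.span_of_finite _ (Set.finite_range _)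
  -- the image of `F₀`
  have hmem : ∀ x₀ : F₀, ι x₀ ∈ W := by
    intro x₀
    obtain ⟨q, p, hq, hqp⟩ := hb x₀
    have h1 := congrArg ι hqp
    rw [map_mul, a5_map_aeval ι hι, comb, map_sum] at h1
    have hq' : q.map (algebraMap K₀ L) ≠ 0 :=
      (Polynomial.map_ne_zero_iff (algebraMap K₀ L).injective).2 hq
    have hne : aeval (ι t₀) (q.map (algebraMap K₀ L)) ≠ 0 := fun h0 => hq' (ht _ h0)
    have h2 : ι x₀ = ∑ i, (⟨(aeval (ι t₀) (q.map (algebraMap K₀ L)))⁻¹ *
        aeval (ι t₀) ((p i).map (algebraMap K₀ L)),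
        mul_mem (inv_mem (a5_aeval_mem _ _)) (a5_aeval_mem _ _)⟩ : L⟮ι t₀⟯) • ι (b i) := by
      rw [eq_comm, ← mul_right_inj' hne, h1, Finset.mul_sum]
      refine Finset.sum_congr rfl fun i _ => ?_
      rw [map_mul, a5_map_aeval ι hι, Algebra.smul_def, IntermediateField.algebraMap_apply]
      field_simp
    rw [h2]
    exact Submodule.sum_mem _ fun i _ => Submodule.smul_mem _ _ (Submodule.subset_span ⟨i, rfl⟩)
  have h1 : (1 : F) ∈ W := by
    have := hmem 1
    rwa [map_one] at this
  have hmul : ∀ x y, x ∈ W → y ∈ W → x * y ∈ W := by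
    intro x y hx hy
    have h2 : x * y ∈ W * W := Submodule.mul_mem_mul hx hy
    rw [hW, Submodule.span_mul_span] at h2
    refine (Submodule.span_le.2 ?_) h2
    rintro _ ⟨_, ⟨i, rfl⟩, _, ⟨j, rfl⟩, rfl⟩
    have := hmem (b i * b j)
    rwa [map_mul] at this
  let S : Subfield F :=
    { carrier := W
      mul_mem' := fun {x y} hx hy => hmul x y hx hy
      one_mem' := h1
      add_mem' := fun hx hy => W.add_mem hx hy
      zero_mem' := W.zero_mem
      neg_mem' := fun hx => W.neg_mem hx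
      inv_mem' := fun x hx => a5_inv_mem W h1 hmul hx }
  have hS : Subfield.closure (Set.range (algebraMap L F) ∪ Set.range ι) ≤ S := by
    rw [Subfield.closure_le]
    rintro _ (⟨c, rfl⟩ | ⟨x₀, rfl⟩)
    · have h3 : algebraMap L F c = (algebraMap L L⟮ι t₀⟯ c) • (1 : F) := by
        rw [Algebra.smul_def, mul_one]
        rfl
      change algebraMap L F c ∈ W
      rw [h3]
      exact W.smul_mem _ h1
    · exact hmem x₀
  intro x
  rw [hgen] at hS
  exact hS (Subfield.mem_top x)

end Fermat.Agent.GAL.KNC
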